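/-
S19lib / Lead / GalBasis  (lead)  — Project FF, input (GB) of FF-G.

A finite continuous `G_ℚ`-set inside a `G_ℚ`-module admits an injective `G_ℚ`-equivariant map to `ℚ̄`
(normal basis theorem for a finite Galois level through which the action factors).
-/
import Mathlib
import Fermat.Agent.S19lib.Iface

set_option autoImplicit false

noncomputable section

namespace Fermat.Agent.S19lib.Lead

local notation "Qb" => AlgebraicClosure ℚ
local notation "GQ" => (AlgebraicClosure ℚ ≃ₐ[ℚ] AlgebraicClosure ℚ)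

section

variable {J : Type} [AddCommGroup J] [DistribMulAction GQ J] (Γ : AddSubgroup J)

/-- the action of `G_ℚ` on a stable subgroup -/
def smG (hst : ∀ σ : GQ, ∀ x ∈ Γ, σ • x ∈ Γ) (σ : GQ) (x : Γ) : Γ := ⟨σ • (x : J), hst σ x x.2⟩

theorem smG_mul (hst : ∀ σ : GQ, ∀ x ∈ Γ, σ • x ∈ Γ) (σ τ : GQ) (x : Γ) :
    smG Γ hst (σ * τ) x = smG Γ hst σ (smG Γ hst τ x) :=
  Subtype.ext (mul_smul σ τ (x : J))

theorem smG_one (hst : ∀ σ : GQ, ∀ x ∈ Γ, σ • x ∈ Γ) (x : Γ) : smG Γ hst 1 x = x :=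
  Subtype.ext (one_smul GQ (x : J))

theorem smG_injective (hst : ∀ σ : GQ, ∀ x ∈ Γ, σ • x ∈ Γ) (σ : GQ) :
    Function.Injective (smG Γ hst σ) := by
  intro x y hxy
  have h := congrArg (smG Γ hst σ⁻¹) hxy
  rwa [← smG_mul, ← smG_mul, inv_mul_cancel, smG_one, smG_one] at h

/-- **(GB)** an injective equivariant map `Γ → ℚ̄` -/
theorem exists_equivariant_injective (h : IsFiniteGaloisSubmodule Γ) :
    ∃ i : Γ → Qb, Function.Injective i ∧
      ∀ (σ : GQ) (x y : Γ), (y : J) = σ • (x : J) → i y = σ (i x) := by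
  classical
  have halg : Algebra.IsAlgebraic ℚ Qb := AlgebraicClosure.isAlgebraic ℚ
  have hcl : IsAlgClosure ℚ Qb := ⟨inferInstance, halg⟩
  have hnorm : Normal ℚ Qb := IsAlgClosure.normal ℚ Qb
  have hfin := h.finite
  let _ : Fintype Γ := Fintype.ofFinite Γ
  have hst := h.stable
  -- a finite Galois level through which the action factors
  choose E hE hfix using fun x : Γ => h.open_stab x x.2
  let F : IntermediateField ℚ Qb := ⨆ x : Γ, E x
  have hFfin : FiniteDimensional ℚ F := IntermediateField.finiteDimensional_iSup_of_finite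
  let K : IntermediateField ℚ Qb := IntermediateField.normalClosure ℚ F Qb
  have hKfin : FiniteDimensional ℚ K := normalClosure.is_finiteDimensional ℚ F Qb
  have hKnorm : Normal ℚ K := normalClosure.normal ℚ F Qb
  have hKgal : IsGalois ℚ K := ⟨⟩
  have hEK : ∀ x : Γ, E x ≤ K := fun x =>
    (le_iSup E x).trans (IntermediateField.le_normalClosure F)
  have htriv : ∀ σ : GQ, (∀ e ∈ K, σ e = e) → ∀ x : Γ, smG Γ hst σ x = x := by
    intro σ hσ x
    exact Subtype.ext (hfix x σ fun e he => hσ e (hEK x he))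
  -- restriction to `K`
  let res : GQ →* (K ≃ₐ[ℚ] K) := AlgEquiv.restrictNormalHom K
  have hres : ∀ (σ : GQ) (k : K), ((res σ k : K) : Qb) = σ (k : Qb) := fun σ k =>
    AlgEquiv.restrictNormal_commutes σ K k
  have hsurj : Function.Surjective res := AlgEquiv.restrictNormalHom_surjective Qb
  have hker : ∀ σ₁ σ₂ : GQ, res σ₁ = res σ₂ → ∀ x : Γ, smG Γ hst σ₁ x = smG Γ hst σ₂ x := by
    intro σ₁ σ₂ h12 x
    have h1 : ∀ e ∈ K, (σ₂⁻¹ * σ₁) e = e := by
      intro e he
      have h2 : res (σ₂⁻¹ * σ₁) = 1 := by rw [map_mul, map_inv, h12, inv_mul_cancel]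
      have h3 := hres (σ₂⁻¹ * σ₁) ⟨e, he⟩
      rw [h2] at h3
      exact h3.symm
    have h4 := htriv _ h1 x
    rw [smG_mul] at h4
    have h5 := congrArg (smG Γ hst σ₂) h4
    rwa [← smG_mul, mul_inv_cancel, smG_one] at h5
  -- a normal basis generator
  obtain ⟨θ, hθ⟩ := exists_linearIndependent_algEquiv_apply ℚ K
  have hθ' : LinearIndependent ℚ fun τ : (K ≃ₐ[ℚ] K) => ((τ θ : K) : Qb) := by
    have := hθ.map' K.val.toLinearMap (LinearMap.ker_eq_bot.mpr K.val.injective)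
    exact this
  -- an injective rational labelling
  let c : Γ → ℚ := fun x => ((Fintype.equivFin Γ x : ℕ) : ℚ)
  have hc : Function.Injective c := by
    intro x y hxy
    have h0 : ((Fintype.equivFin Γ x : ℕ) : ℚ) = ((Fintype.equivFin Γ y : ℕ) : ℚ) := hxy
    have h1 : ((Fintype.equivFin Γ x : ℕ)) = (Fintype.equivFin Γ y : ℕ) := by exact_mod_cast h0
    exact (Fintype.equivFin Γ).injective (Fin.ext h1)
  let lift : (K ≃ₐ[ℚ] K) → GQ := Function.surjInv hsurj
  have hlift : ∀ τ, res (lift τ) = τ := Function.surjInv_eq hsurj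
  let i : Γ → Qb := fun x => ∑ τ : (K ≃ₐ[ℚ] K), c (smG Γ hst (lift τ)⁻¹ x) • ((τ θ : K) : Qb)
  refine ⟨i, ?_, ?_⟩
  · intro x y hxy
    have h0 : ∑ τ : (K ≃ₐ[ℚ] K),
        (c (smG Γ hst (lift τ)⁻¹ x) - c (smG Γ hst (lift τ)⁻¹ y)) • ((τ θ : K) : Qb) = 0 := by
      simp only [sub_smul, Finset.sum_sub_distrib]
      exact sub_eq_zero.mpr hxy
    have h1 := Fintype.linearIndependent_iff.mp hθ' _ h0 1
    have h2 := hc (sub_eq_zero.mp h1)
    exact smG_injective Γ hst _ h2
  · intro σ x y hy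
    have hyx : y = smG Γ hst σ x := Subtype.ext hy
    change i y = σ (i x)
    simp only [i]
    rw [map_sum]
    have h1 : ∀ τ : (K ≃ₐ[ℚ] K), σ (c (smG Γ hst (lift τ)⁻¹ x) • ((τ θ : K) : Qb)) =
        c (smG Γ hst (lift (res σ * τ))⁻¹ y) • (((res σ * τ) θ : K) : Qb) := by
      intro τ
      rw [map_rat_smul]
      congr 1
      · congr 1
        rw [hyx, ← smG_mul]
        apply hker
        rw [map_inv, map_mul, map_inv, hlift, hlift, mul_inv_rev, inv_mul_cancel_right]
      · exact (hres σ (τ θ)).symm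
    rw [Finset.sum_congr rfl fun τ _ => h1 τ]
    have h2 := Equiv.sum_comp (Equiv.mulLeft (res σ))
      (fun τ : (K ≃ₐ[ℚ] K) => c (smG Γ hst (lift τ)⁻¹ y) • ((τ θ : K) : Qb))
    simp only [Equiv.coe_mulLeft] at h2
    exact h2.symm

end

end Fermat.Agent.S19lib.Lead
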