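/-
S19lib / Lead / ADApprox  (lead)  — Project FF, arithmetic input of FF-G.

`A` a valuation subring of `ℚ̄` over the prime `ℓ`, `D` its decomposition group.  Every `D`-fixed
element of `A` is congruent to an integer modulo `ℓ^n A`, for every `n` (the decomposition ring has
the same completion as `ℤ_(ℓ)`: `e = f = 1`).  No decomposition fields: an element `y` of `ℚ̄` with
`y ≡ r` at `A` whose other conjugates are all small at `A`, and the sum of the conjugates of `y`.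
-/
import Mathlib
import Fermat.Agent.S19lib.Iface
import Fermat.Agent.S56lib.TWSel.Places
import Fermat.Agent.LSb.Kum.Teich
import Fermat.Agent.S18lib.Asm.RankOne

set_option autoImplicit false

open Fermat.Agent.Helper5 Fermat.Agent.S56lib.TWSel
open scoped Pointwise

noncomputable section

namespace Fermat.Agent.S19lib.Lead

/-! ### Part 1: an open subgroup `U` permutes transitively the primes of `ℤ̄` over a prime of `ℤ̄^U` -/

section Transitive

variable (U : Subgroup GQ)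

/-- the ring of `U`-invariants of `ℤ̄` -/
abbrev ZU : Subalgebra ℤ Zbar := FixedPoints.subalgebra ℤ Zbar U

instance instSMulCommClassZU : SMulCommClass U (ZU U) Zbar :=
  ⟨fun u a b => by
    change u • ((a : Zbar) * b) = (a : Zbar) * (u • b)
    rw [smul_mul', a.2 u]⟩

instance instIsInvariantZU : Algebra.IsInvariant (ZU U) Zbar U :=
  ⟨fun b hb => ⟨⟨b, hb⟩, rfl⟩⟩

theorem exists_mem_smul_eq_of_under_eq (hU : IsOpen (U : Set GQ)) (P Q : Ideal Zbar) [P.IsPrime]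
    [Q.IsPrime] (h : P.under (ZU U) = Q.under (ZU U)) : ∃ u ∈ U, Q = u • P := by
  have : CompactSpace U := isCompact_iff_compactSpace.mp (U.isClosed_of_isOpen hU).isCompact
  obtain ⟨u, hu⟩ := Algebra.IsInvariant.exists_smul_of_under_eq_of_profinite (A := ZU U) (B := Zbar)
    (G := U) P Q h
  exact ⟨u.1, u.2, hu⟩

end Transitive

/-! ### Part 2: an element of `ℤ̄^U` outside `primeOf A` and inside the primes `σ⁻¹ • primeOf A`, `σ ∉ D U` -/

section CRT

variable {A : ValuationSubring Qbar} {ℓ : ℕ}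

/-- `σ ∈ D · U` -/
def InDU (A : ValuationSubring Qbar) (U : Subgroup GQ) (σ : GQ) : Prop :=
  ∃ d ∈ A.decompositionSubgroup ℚ, ∃ u ∈ U, σ = d * u

theorem mem_decomp_of_smul_eq {σ : GQ} (h : σ • A = A) : σ ∈ A.decompositionSubgroup ℚ := h

theorem isIntegral_ZU (U : Subgroup GQ) : Algebra.IsIntegral ℤ (ZU U) := by
  refine ⟨fun a => ?_⟩
  have h1 : IsIntegral ℤ ((a : Zbar) : Qbar) := (a : Zbar).2
  have h2 : IsIntegral ℤ (a : Zbar) := by
    rw [← isIntegral_algebraMap_iff (B := Qbar) Subtype.val_injective]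
    exact h1
  rw [← isIntegral_algebraMap_iff (B := Zbar) Subtype.val_injective]
  exact h2

theorem under_ZU_isMaximal (hℓ : ℓ.Prime) (hA : A.LiesOverPrime ℓ) (U : Subgroup GQ) :
    ((primeOf A).under (ZU U)).IsMaximal := by
  have := isIntegral_ZU U
  have hp : ((primeOf A).under (ZU U)).IsPrime := Ideal.IsPrime.under _ _
  refine Ideal.isMaximal_of_isIntegral_of_isMaximal_comap (R := ℤ) _ ?_
  have h1 : Ideal.comap (algebraMap ℤ (ZU U)) ((primeOf A).under (ZU U)) = (primeOf A).under ℤ := by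
    ext z
    simp only [Ideal.mem_comap, Ideal.under_def]
    rfl
  rw [h1, ← primeOf_under hℓ hA]
  exact span_prime_isMaximal hℓ

/-- for `σ ∉ D U` some `U`-invariant algebraic integer lies in `σ⁻¹ P` but not in `P` -/
theorem exists_ZU_mem_not_mem (hℓ : ℓ.Prime) (hA : A.LiesOverPrime ℓ) (U : Subgroup GQ)
    (hU : IsOpen (U : Set GQ)) {σ : GQ} (hσ : ¬ InDU A U σ) :
    ∃ a : ZU U, σ ((a : Zbar) : Qbar) ∈ A.nonunits ∧ ((a : Zbar) : Qbar) ∉ A.nonunits := by
  by_contra hcon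
  push Not at hcon
  have hA' : (σ⁻¹ • A).LiesOverPrime ℓ := liesOverPrime_smul hA
  -- `Q = primeOf (σ⁻¹ • A)` has `Q.under ≤ P.under`
  have hle : (primeOf (σ⁻¹ • A)).under (ZU U) ≤ (primeOf A).under (ZU U) := by
    intro a ha
    rw [Ideal.mem_comap] at ha ⊢
    change ((algebraMap (ZU U) Zbar a : Zbar) : Qbar) ∈ (σ⁻¹ • A).nonunits at ha
    change ((algebraMap (ZU U) Zbar a : Zbar) : Qbar) ∈ A.nonunits
    rw [mem_nonunits_smul_iff, inv_inv] at ha
    exact hcon a ha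
  have hmax := under_ZU_isMaximal hℓ hA' U
  have hne : (primeOf A).under (ZU U) ≠ ⊤ := (Ideal.IsPrime.under (ZU U) (primeOf A)).ne_top
  have heq : (primeOf (σ⁻¹ • A)).under (ZU U) = (primeOf A).under (ZU U) := hmax.eq_of_le hne hle
  obtain ⟨u, hu, hQ⟩ := exists_mem_smul_eq_of_under_eq U hU (primeOf (σ⁻¹ • A)) (primeOf A) heq
  -- `primeOf A = u • primeOf (σ⁻¹ • A) = primeOf ((u * σ⁻¹) • A)`
  rw [← primeOf_smul, ← mul_smul] at hQ
  have hAeq : A = (u * σ⁻¹) • A :=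
    eq_of_primeOf_eq hℓ hA (liesOverPrime_smul hA) hQ
  apply hσ
  refine ⟨σ * u⁻¹, ?_, u, hu, by group⟩
  have h2 : (σ * u⁻¹) • A = A := by
    conv_lhs => rw [hAeq, ← mul_smul]
    have : σ * u⁻¹ * (u * σ⁻¹) = 1 := by group
    rw [this, one_smul]
  exact h2

/-- the embedding `ℤ̄^U → ℚ̄` -/
def iota (U : Subgroup GQ) : ZU U →+* Qbar :=
  (algebraMap Zbar Qbar).comp (algebraMap (ZU U) Zbar)

theorem iota_apply (U : Subgroup GQ) (a : ZU U) : iota U a = ((a : Zbar) : Qbar) := rfl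

theorem iota_mem (U : Subgroup GQ) (a : ZU U) (B : ValuationSubring Qbar) : iota U a ∈ B :=
  zbar_mem B (a : Zbar)

theorem iota_fixed (U : Subgroup GQ) (a : ZU U) {u : GQ} (hu : u ∈ U) : u (iota U a) = iota U a := by
  have h := a.2 ⟨u, hu⟩
  have h2 := congrArg (fun b : Zbar => (b : Qbar)) h
  exact h2

theorem apply_iota_mem (U : Subgroup GQ) (a : ZU U) (σ : GQ) (B : ValuationSubring Qbar) :
    σ (iota U a) ∈ B := by
  have h : σ (iota U a) = ((σ • (a : Zbar) : Zbar) : Qbar) := rfl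
  rw [h]
  exact zbar_mem B _

/-- **the CRT element**: `U`-invariant, a unit at `A`, in the maximal ideal of `σ⁻¹ A` for all
`σ ∉ D U`. -/
theorem exists_ZU_crt (hℓ : ℓ.Prime) (hA : A.LiesOverPrime ℓ) (U : Subgroup GQ) [U.Normal]
    (hU : IsOpen (U : Set GQ)) :
    ∃ a : ZU U, iota U a ∉ A.nonunits ∧ ∀ σ : GQ, ¬ InDU A U σ → σ (iota U a) ∈ A.nonunits := by
  classical
  have hfin : Finite (GQ ⧸ U) := Subgroup.quotient_finite_of_isOpen U hU
  let _ : Fintype (GQ ⧸ U) := Fintype.ofFinite _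
  let f : GQ ⧸ U → ZU U := fun c =>
    if h : ¬ InDU A U c.out then (exists_ZU_mem_not_mem hℓ hA U hU h).choose else 1
  have hf1 : ∀ c, iota U (f c) ∉ A.nonunits := by
    intro c
    by_cases h : ¬ InDU A U c.out
    · have : f c = (exists_ZU_mem_not_mem hℓ hA U hU h).choose := dif_pos h
      rw [this]
      exact (exists_ZU_mem_not_mem hℓ hA U hU h).choose_spec.2
    · have : f c = 1 := dif_neg h
      rw [this, map_one, ValuationSubring.mem_nonunits_iff]
      simp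
  have hf2 : ∀ c, ¬ InDU A U c.out → (c.out : GQ) (iota U (f c)) ∈ A.nonunits := by
    intro c h
    have : f c = (exists_ZU_mem_not_mem hℓ hA U hU h).choose := dif_pos h
    rw [this]
    exact (exists_ZU_mem_not_mem hℓ hA U hU h).choose_spec.1
  refine ⟨∏ c, f c, ?_, ?_⟩
  · rw [map_prod]
    intro hmem
    -- a product of units of `A` is a unit
    have hunit : ∀ s : Finset (GQ ⧸ U), (∏ c ∈ s, iota U (f c)) ∉ A.nonunits := by
      intro s
      induction s using Finset.induction_on with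
      | empty =>
        rw [Finset.prod_empty, ValuationSubring.mem_nonunits_iff]; simp
      | insert c s hc ih =>
        rw [Finset.prod_insert hc]
        intro h
        rw [ValuationSubring.mem_nonunits_iff, map_mul] at h
        have h1 : A.valuation (iota U (f c)) = 1 := by
          have := hf1 c
          rw [ValuationSubring.mem_nonunits_iff, not_lt] at this
          exact le_antisymm ((A.valuation_le_one_iff _).2 (iota_mem U _ A)) this
        have h2 : A.valuation (∏ c ∈ s, iota U (f c)) = 1 := by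
          rw [ValuationSubring.mem_nonunits_iff, not_lt] at ih
          refine le_antisymm ((A.valuation_le_one_iff _).2 ?_) ih
          exact Subring.prod_mem A.toSubring (fun c _ => iota_mem U _ A)
        rw [h1, h2, one_mul] at h
        exact lt_irrefl _ h
    exact hunit Finset.univ hmem
  · intro σ hσ
    set c : GQ ⧸ U := (σ : GQ ⧸ U) with hc
    obtain ⟨u, hu⟩ := QuotientGroup.mk_out_eq_mul U σ
    have hcbad : ¬ InDU A U c.out := by
      rintro ⟨d, hd, u', hu', h⟩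
      apply hσ
      refine ⟨d, hd, u' * (u : GQ)⁻¹, U.mul_mem hu' (U.inv_mem u.2), ?_⟩
      have : σ = c.out * (u : GQ)⁻¹ := by rw [hc, hu]; group
      rw [this, h]; group
    have hσc : σ (iota U (f c)) = (c.out : GQ) (iota U (f c)) := by
      have h1 : (c.out : GQ) = σ * u := hu
      rw [h1]
      change σ (iota U (f c)) = σ ((u : GQ) (iota U (f c)))
      rw [iota_fixed U (f c) u.2]
    rw [map_prod, map_prod, ← Finset.mul_prod_erase Finset.univ _ (Finset.mem_univ c), mul_comm]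
    refine mul_mem_nonunits_of_mem ?_ ?_
    · exact Subring.prod_mem A.toSubring (fun c' _ => apply_iota_mem U _ σ A)
    · rw [hσc]
      exact hf2 c hcbad

end CRT

/-! ### Part 3: powers in the valuation ring `A` -/

section Powers

variable {A : ValuationSubring Qbar} {ℓ : ℕ}

theorem natCast_mem_maximalIdeal (hA : A.LiesOverPrime ℓ) :
    ((ℓ : ℕ) : A) ∈ IsLocalRing.maximalIdeal A := by
  have h1 : ((ℓ : ℕ) : Qbar) ∈ A.nonunits := hA
  rw [ValuationSubring.mem_nonunits_iff_exists_mem_maximalIdeal] at h1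
  obtain ⟨hm, hm'⟩ := h1
  have : (⟨((ℓ : ℕ) : Qbar), hm⟩ : A) = ((ℓ : ℕ) : A) := by
    ext; simp
  rw [← this]
  exact hm'

theorem natCast_pow_ne_zero (hℓ : ℓ.Prime) (N : ℕ) : (((ℓ : ℕ) : A) ^ N) ≠ 0 := by
  apply pow_ne_zero
  intro h
  have h2 := congrArg (fun x : A => (x : Qbar)) h
  have h3 : ((ℓ : ℕ) : Qbar) = 0 := by simpa using h2
  exact hℓ.ne_zero (by exact_mod_cast h3)

/-- rank one: high powers of a non-unit are divisible by `ℓ^N` -/
theorem exists_pow_dvd_pow (hℓ : ℓ.Prime) (hA : A.LiesOverPrime ℓ) {c : A}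
    (hc : c ∈ IsLocalRing.maximalIdeal A) (N : ℕ) :
    ∃ M : ℕ, ∀ M' : ℕ, M ≤ M' → ((ℓ : ℕ) : A) ^ N ∣ c ^ M' := by
  have : Fact ℓ.Prime := ⟨hℓ⟩
  obtain ⟨n, hn⟩ := Fermat.Agent.S18lib.rankOne_of_liesOverPrime A hA c hc _
    (natCast_pow_ne_zero (A := A) hℓ N)
  refine ⟨n, fun M' hM' => ?_⟩
  rcases ValuationRing.dvd_total (c ^ n) (((ℓ : ℕ) : A) ^ N) with h | h
  · exact absurd h hn
  · exact h.trans (pow_dvd_pow c hM')

/-- `b ≡ 1` modulo the maximal ideal implies `b^(ℓ^j) → 1` `ℓ`-adically -/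
theorem exists_pow_pow_sub_one (hℓ : ℓ.Prime) (hA : A.LiesOverPrime ℓ) {b : A}
    (hb : b - 1 ∈ IsLocalRing.maximalIdeal A) (N : ℕ) :
    ∃ j₀ : ℕ, ∀ j : ℕ, j₀ ≤ j → ((ℓ : ℕ) : A) ^ N ∣ b ^ (ℓ ^ j) - 1 := by
  -- a common divisor `c` of `ℓ` and `b - 1` in the maximal ideal
  obtain ⟨c, hc, hcℓ, hcb⟩ : ∃ c : A, c ∈ IsLocalRing.maximalIdeal A ∧ c ∣ ((ℓ : ℕ) : A) ∧ c ∣ b - 1 := by
    rcases ValuationRing.dvd_total (((ℓ : ℕ) : A)) (b - 1) with h | h
    · exact ⟨_, natCast_mem_maximalIdeal hA, dvd_rfl, h⟩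
    · exact ⟨_, hb, h, dvd_rfl⟩
  have key : ∀ j : ℕ, c ^ (j + 1) ∣ b ^ (ℓ ^ j) - 1 := by
    intro j
    induction j with
    | zero => simpa using hcb
    | succ j ih =>
      set t := b ^ (ℓ ^ j) with ht
      have h1 : b ^ (ℓ ^ (j + 1)) - 1 = (∑ i ∈ Finset.range ℓ, t ^ i) * (t - 1) := by
        rw [geom_sum_mul, ht, ← pow_mul, pow_succ]
      have hct : c ∣ t - 1 := (dvd_pow_self c (Nat.succ_ne_zero j)).trans ih
      have h2 : c ∣ ∑ i ∈ Finset.range ℓ, t ^ i := by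
        have h3 : ∑ i ∈ Finset.range ℓ, t ^ i = ∑ i ∈ Finset.range ℓ, (t ^ i - 1) + ((ℓ : ℕ) : A) := by
          rw [Finset.sum_sub_distrib]
          simp
        rw [h3]
        refine dvd_add (Finset.dvd_sum fun i _ => ?_) hcℓ
        have := sub_dvd_pow_sub_pow t 1 i
        rw [one_pow] at this
        exact hct.trans this
      rw [h1, pow_succ' c (j + 1)]
      exact mul_dvd_mul h2 ih
  obtain ⟨M, hM⟩ := exists_pow_dvd_pow hℓ hA hc N
  exact ⟨M, fun j hj => (hM (j + 1) (by omega)).trans (key j)⟩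

end Powers

/-! ### Part 4: smallness at `A` -/

section Small

variable {A : ValuationSubring Qbar} {ℓ : ℕ}

/-- `x ∈ ℓ^N A` -/
def IsSmall (A : ValuationSubring Qbar) (ℓ N : ℕ) (x : Qbar) : Prop :=
  ∃ s ∈ A, x = ((ℓ : ℕ) : Qbar) ^ N * s

theorem natCast_mem (hA : A.LiesOverPrime ℓ) : ((ℓ : ℕ) : Qbar) ∈ A := A.nonunits_le hA

theorem IsSmall.mem (hA : A.LiesOverPrime ℓ) {N : ℕ} {x : Qbar} (h : IsSmall A ℓ N x) : x ∈ A := by
  obtain ⟨s, hs, rfl⟩ := h
  exact A.mul_mem _ _ (pow_mem (natCast_mem hA) N) hs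

theorem IsSmall.zero (N : ℕ) : IsSmall A ℓ N 0 := ⟨0, A.zero_mem, by simp⟩

theorem IsSmall.add {N : ℕ} {x y : Qbar} (hx : IsSmall A ℓ N x) (hy : IsSmall A ℓ N y) :
    IsSmall A ℓ N (x + y) := by
  obtain ⟨s, hs, rfl⟩ := hx
  obtain ⟨t, ht, rfl⟩ := hy
  exact ⟨s + t, A.add_mem _ _ hs ht, by ring⟩

theorem IsSmall.neg {N : ℕ} {x : Qbar} (hx : IsSmall A ℓ N x) : IsSmall A ℓ N (-x) := by
  obtain ⟨s, hs, rfl⟩ := hx
  exact ⟨-s, A.neg_mem _ hs, by ring⟩

theorem IsSmall.sub {N : ℕ} {x y : Qbar} (hx : IsSmall A ℓ N x) (hy : IsSmall A ℓ N y) :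
    IsSmall A ℓ N (x - y) := by
  rw [sub_eq_add_neg]; exact hx.add hy.neg

theorem IsSmall.mul_mem {N : ℕ} {x y : Qbar} (hx : IsSmall A ℓ N x) (hy : y ∈ A) :
    IsSmall A ℓ N (x * y) := by
  obtain ⟨s, hs, rfl⟩ := hx
  exact ⟨s * y, A.mul_mem _ _ hs hy, by ring⟩

theorem IsSmall.mem_mul {N : ℕ} {x y : Qbar} (hy : y ∈ A) (hx : IsSmall A ℓ N x) :
    IsSmall A ℓ N (y * x) := by
  rw [mul_comm]; exact hx.mul_mem hy

theorem IsSmall.mono (hA : A.LiesOverPrime ℓ) {N N' : ℕ} (h : N' ≤ N) {x : Qbar}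
    (hx : IsSmall A ℓ N x) : IsSmall A ℓ N' x := by
  obtain ⟨s, hs, rfl⟩ := hx
  refine ⟨((ℓ : ℕ) : Qbar) ^ (N - N') * s, A.mul_mem _ _ (pow_mem (natCast_mem hA) _) hs, ?_⟩
  rw [← mul_assoc, ← pow_add]
  congr 2
  omega

theorem IsSmall.apply_of_mem_decomp {N : ℕ} {x : Qbar} {d : GQ}
    (hd : d ∈ A.decompositionSubgroup ℚ) (hx : IsSmall A ℓ N x) : IsSmall A ℓ N (d x) := by
  obtain ⟨s, hs, rfl⟩ := hx
  refine ⟨d s, apply_mem_of_mem_decomp hd hs, ?_⟩
  rw [map_mul, map_pow, map_natCast]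

theorem isSmall_of_dvd {N : ℕ} {x : A} (h : ((ℓ : ℕ) : A) ^ N ∣ x) : IsSmall A ℓ N (x : Qbar) := by
  obtain ⟨s, rfl⟩ := h
  exact ⟨s, s.2, by simp⟩

theorem isSmall_multiset_sum {N : ℕ} (m : Multiset Qbar) (h : ∀ x ∈ m, IsSmall A ℓ N x) :
    IsSmall A ℓ N m.sum := by
  induction m using Multiset.induction_on with
  | empty => simpa using IsSmall.zero (A := A) (ℓ := ℓ) N
  | cons a m ih =>
    rw [Multiset.sum_cons]
    exact (h a (Multiset.mem_cons_self a m)).add (ih fun x hx => h x (Multiset.mem_cons_of_mem hx))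

/-- a product of elements `≡ 1` is `≡ 1` -/
theorem isSmall_prod_sub_one (hA : A.LiesOverPrime ℓ) {N : ℕ} (S : Finset Qbar)
    (h : ∀ x ∈ S, IsSmall A ℓ N (x - 1)) : IsSmall A ℓ N (∏ x ∈ S, x - 1) := by
  classical
  induction S using Finset.induction_on with
  | empty => simpa using IsSmall.zero (A := A) (ℓ := ℓ) N
  | insert a S ha ih =>
    rw [Finset.prod_insert ha]
    have h1 := h a (Finset.mem_insert_self a S)
    have h2 := ih fun x hx => h x (Finset.mem_insert_of_mem hx)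
    have ha' : a ∈ A := by
      have := h1.mem hA
      have h3 : a = (a - 1) + 1 := by ring
      rw [h3]; exact A.add_mem _ _ this A.one_mem
    have : a * ∏ x ∈ S, x - 1 = a * (∏ x ∈ S, x - 1) + (a - 1) := by ring
    rw [this]
    exact (h2.mem_mul ha').add h1

end Small

/-! ### Part 5: the element `y₁` -/

section Y1

variable {A : ValuationSubring Qbar} {ℓ : ℕ}

/-- an element of `A` that is not a nonunit, as a unit-residue element of the subring -/
theorem residue_ne_zero_of_not_mem_nonunits {x : Qbar} (hx : x ∈ A) (h : x ∉ A.nonunits) :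
    IsLocalRing.residue A ⟨x, hx⟩ ≠ 0 := by
  intro h0
  rw [IsLocalRing.residue_eq_zero_iff] at h0
  apply h
  rw [ValuationSubring.mem_nonunits_iff_exists_mem_maximalIdeal]
  exact ⟨hx, h0⟩

theorem mem_maximalIdeal_of_mem_nonunits {x : Qbar} (hx : x ∈ A) (h : x ∈ A.nonunits) :
    (⟨x, hx⟩ : A) ∈ IsLocalRing.maximalIdeal A := by
  rw [ValuationSubring.mem_nonunits_iff_exists_mem_maximalIdeal] at h
  obtain ⟨_, h2⟩ := h
  exact h2

/-- **Step A0**: a `U`-invariant integer `b` with `b ≡ 1` at `A` and `σ b` in the maximal ideal of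
`A` for `σ ∉ D U`. -/
theorem exists_ZU_one (hℓ : ℓ.Prime) (hA : A.LiesOverPrime ℓ) (U : Subgroup GQ) [U.Normal]
    (hU : IsOpen (U : Set GQ)) :
    ∃ b : ZU U, (iota U b - 1) ∈ A.nonunits ∧ ∀ σ : GQ, ¬ InDU A U σ → σ (iota U b) ∈ A.nonunits := by
  have : Fact ℓ.Prime := ⟨hℓ⟩
  obtain ⟨a, ha1, ha2⟩ := exists_ZU_crt hℓ hA U hU
  have hres := residue_ne_zero_of_not_mem_nonunits (iota_mem U a A) ha1
  obtain ⟨m, hm, -, hpow⟩ := Fermat.Agent.LSb.Kum.exists_pow_eq_one hA hres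
  refine ⟨a ^ m, ?_, ?_⟩
  · rw [map_pow]
    have h1 : (⟨iota U a, iota_mem U a A⟩ : A) ^ m - 1 ∈ IsLocalRing.maximalIdeal A := by
      rw [← IsLocalRing.residue_eq_zero_iff, map_sub, map_pow, hpow, map_one, sub_self]
    rw [ValuationSubring.mem_nonunits_iff_exists_mem_maximalIdeal]
    refine ⟨sub_mem (pow_mem (iota_mem U a A) m) A.one_mem, ?_⟩
    exact h1
  · intro σ hσ
    rw [map_pow, map_pow]
    have h1 := ha2 σ hσ
    rw [ValuationSubring.mem_nonunits_iff] at h1 ⊢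
    rw [map_pow]
    exact pow_lt_one' h1 hm.ne'

theorem out_not_inDU (U : Subgroup GQ) [U.Normal] {σ : GQ} (hσ : ¬ InDU A U σ) :
    ¬ InDU A U ((σ : GQ ⧸ U).out) := by
  obtain ⟨u, hu⟩ := QuotientGroup.mk_out_eq_mul U σ
  rintro ⟨d, hd, u', hu', h⟩
  apply hσ
  refine ⟨d, hd, u' * (u : GQ)⁻¹, U.mul_mem hu' (U.inv_mem u.2), ?_⟩
  have : σ = (σ : GQ ⧸ U).out * (u : GQ)⁻¹ := by rw [hu]; group
  rw [this, h]; group

theorem out_apply_iota (U : Subgroup GQ) (a : ZU U) (σ : GQ) :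
    ((σ : GQ ⧸ U).out : GQ) (iota U a) = σ (iota U a) := by
  obtain ⟨u, hu⟩ := QuotientGroup.mk_out_eq_mul U σ
  rw [hu]
  change σ ((u : GQ) (iota U a)) = σ (iota U a)
  rw [iota_fixed U a u.2]

/-- **Step A1**: `y₀ ≡ 1 mod ℓ^N` at `A`, `U`-invariant, all conjugates in `A`, and `σ y₀ ≡ 0 mod ℓ^N`
for `σ ∉ D U`. -/
theorem exists_y0 (hℓ : ℓ.Prime) (hA : A.LiesOverPrime ℓ) (U : Subgroup GQ) [U.Normal]
    (hU : IsOpen (U : Set GQ)) (N : ℕ) :
    ∃ y₀ : Qbar, (∀ σ : GQ, σ y₀ ∈ A) ∧ (∀ u ∈ U, u y₀ = y₀) ∧ IsSmall A ℓ N (y₀ - 1) ∧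
      ∀ σ : GQ, ¬ InDU A U σ → IsSmall A ℓ N (σ y₀) := by
  classical
  obtain ⟨b, hb1, hb2⟩ := exists_ZU_one hℓ hA U hU
  have hfin : Finite (GQ ⧸ U) := Subgroup.quotient_finite_of_isOpen U hU
  let _ : Fintype (GQ ⧸ U) := Fintype.ofFinite _
  -- the element of `A`
  have hbmem : iota U b ∈ A := iota_mem U b A
  have hbA : (⟨iota U b, hbmem⟩ : A) - 1 ∈ IsLocalRing.maximalIdeal A := by
    have h := mem_maximalIdeal_of_mem_nonunits (sub_mem hbmem A.one_mem) hb1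
    have : (⟨iota U b - 1, sub_mem hbmem A.one_mem⟩ : A) = (⟨iota U b, hbmem⟩ : A) - 1 := by
      ext; simp
    rw [← this]; exact h
  obtain ⟨j₀, hj₀⟩ := exists_pow_pow_sub_one hℓ hA hbA N
  -- the bad cosets
  have hMex : ∀ c : GQ ⧸ U, ∃ M : ℕ, ¬ InDU A U c.out → ∀ M' : ℕ, M ≤ M' →
      ((ℓ : ℕ) : A) ^ N ∣ (⟨(c.out : GQ) (iota U b), apply_iota_mem U b _ A⟩ : A) ^ M' := by
    intro c
    by_cases h : ¬ InDU A U c.out
    · obtain ⟨M, hM⟩ := exists_pow_dvd_pow hℓ hA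
        (mem_maximalIdeal_of_mem_nonunits (apply_iota_mem U b _ A) (hb2 c.out h)) N
      exact ⟨M, fun _ => hM⟩
    · exact ⟨0, fun h' => absurd h' h⟩
  choose Mfun hMfun using hMex
  set M := Finset.univ.sup Mfun with hMdef
  set j := max j₀ M with hjdef
  have hjM : M ≤ ℓ ^ j := by
    have h1 : j < ℓ ^ j := Nat.lt_pow_self hℓ.one_lt
    have h2 : M ≤ j := le_max_right _ _
    omega
  refine ⟨(iota U b) ^ (ℓ ^ j), ?_, ?_, ?_, ?_⟩
  · intro σ
    rw [map_pow]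
    exact pow_mem (apply_iota_mem U b σ A) _
  · intro u hu
    rw [map_pow, iota_fixed U b hu]
  · have h := hj₀ j (le_max_left _ _)
    have h2 := isSmall_of_dvd h
    have : (((⟨iota U b, hbmem⟩ : A) ^ (ℓ ^ j) - 1 : A) : Qbar) = (iota U b) ^ (ℓ ^ j) - 1 := by
      simp
    rw [this] at h2
    exact h2
  · intro σ hσ
    have hbad := out_not_inDU (A := A) U hσ
    have hM' : Mfun (σ : GQ ⧸ U) ≤ ℓ ^ j :=
      (Finset.le_sup (f := Mfun) (Finset.mem_univ _)).trans hjM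
    have h := hMfun (σ : GQ ⧸ U) hbad (ℓ ^ j) hM'
    have h2 := isSmall_of_dvd h
    have : (((⟨((σ : GQ ⧸ U).out : GQ) (iota U b), apply_iota_mem U b _ A⟩ : A) ^ (ℓ ^ j) : A) : Qbar)
        = σ ((iota U b) ^ (ℓ ^ j)) := by
      rw [map_pow, ← out_apply_iota U b σ]
      simp
    rw [this] at h2
    exact h2

theorem aeval_apply_minpoly (y : Qbar) (σ : GQ) : Polynomial.aeval (σ y) (minpoly ℚ y) = 0 := by
  have h := Polynomial.aeval_algHom_apply (σ : Qbar →ₐ[ℚ] Qbar) y (minpoly ℚ y)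
  rw [minpoly.aeval, map_zero] at h
  exact h

/-- **Step A2**: the norm of `y₀` over the decomposition group. -/
theorem exists_y1 (hℓ : ℓ.Prime) (hA : A.LiesOverPrime ℓ) (U : Subgroup GQ) [hUn : U.Normal]
    (hU : IsOpen (U : Set GQ)) (N : ℕ) :
    ∃ y₁ : Qbar, y₁ ∈ A ∧ (∀ d ∈ A.decompositionSubgroup ℚ, d y₁ = y₁) ∧ (∀ u ∈ U, u y₁ = y₁) ∧
      IsSmall A ℓ N (y₁ - 1) ∧ ∀ σ : GQ, ¬ InDU A U σ → IsSmall A ℓ N (σ y₁) := by
  classical
  obtain ⟨y₀, h1, h2, h3, h4⟩ := exists_y0 hℓ hA U hU N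
  have hint : IsIntegral ℚ y₀ := Algebra.IsIntegral.isIntegral y₀
  set p := minpoly ℚ y₀ with hp
  have hp0 : p ≠ 0 := minpoly.ne_zero hint
  let R : Finset Qbar := (p.rootSet Qbar).toFinset
  let S : Finset Qbar := R.filter (fun x => ∃ d ∈ A.decompositionSubgroup ℚ, x = d y₀)
  have hS : ∀ x, x ∈ S ↔ ∃ d ∈ A.decompositionSubgroup ℚ, x = d y₀ := by
    intro x
    simp only [S, R, Finset.mem_filter, Set.mem_toFinset, Polynomial.mem_rootSet]
    constructor
    · exact fun h => h.2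
    · rintro ⟨d, hd, rfl⟩
      exact ⟨⟨hp0, aeval_apply_minpoly y₀ d⟩, d, hd, rfl⟩
  have hy₀S : y₀ ∈ S := (hS y₀).2 ⟨1, Subgroup.one_mem _, rfl⟩
  refine ⟨∏ x ∈ S, x, ?_, ?_, ?_, ?_, ?_⟩
  · refine prod_mem fun x hx => ?_
    obtain ⟨d, -, rfl⟩ := (hS x).1 hx
    exact h1 d
  · intro g hg
    rw [map_prod]
    refine Finset.prod_bij (fun x _ => g x) ?_ ?_ ?_ ?_
    · intro x hx
      obtain ⟨d, hd, rfl⟩ := (hS x).1 hx
      exact (hS _).2 ⟨g * d, Subgroup.mul_mem _ hg hd, rfl⟩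
    · intro x _ x' _ h
      exact g.injective h
    · intro x' hx'
      obtain ⟨d, hd, rfl⟩ := (hS x').1 hx'
      refine ⟨(g⁻¹ * d) y₀, (hS _).2 ⟨g⁻¹ * d, Subgroup.mul_mem _ (Subgroup.inv_mem _ hg) hd, rfl⟩, ?_⟩
      change g (g⁻¹ (d y₀)) = d y₀
      exact apply_inv_apply g (d y₀)
    · intro x _; rfl
  · intro u hu
    rw [map_prod]
    refine Finset.prod_congr rfl fun x hx => ?_
    obtain ⟨d, -, rfl⟩ := (hS x).1 hx
    have hconj : d⁻¹ * u * d ∈ U := by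
      have := hUn.conj_mem u hu d⁻¹
      simpa using this
    have h5 := h2 _ hconj
    have h6 : u (d y₀) = d ((d⁻¹ * u * d) y₀) := by
      change u (d y₀) = d (d⁻¹ (u (d y₀)))
      rw [apply_inv_apply]
    rw [h6, h5]
  · refine isSmall_prod_sub_one hA S fun x hx => ?_
    obtain ⟨d, hd, rfl⟩ := (hS x).1 hx
    have := h3.apply_of_mem_decomp hd
    rwa [map_sub, map_one] at this
  · intro σ hσ
    rw [map_prod, ← Finset.mul_prod_erase S (fun x => σ x) hy₀S]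
    refine (h4 σ hσ).mul_mem (prod_mem fun x hx => ?_)
    obtain ⟨d, -, rfl⟩ := (hS x).1 (Finset.mem_of_mem_erase hx)
    exact h1 (σ * d)

end Y1

/-! ### Part 6: the sum of the conjugates -/

section Main

variable {A : ValuationSubring Qbar} {ℓ : ℕ}

/-- bounded denominators -/
theorem exists_pow_mul_mem (hℓ : ℓ.Prime) (hA : A.LiesOverPrime ℓ) (x : Qbar) :
    ∃ m : ℕ, ((ℓ : ℕ) : Qbar) ^ m * x ∈ A := by
  have : Fact ℓ.Prime := ⟨hℓ⟩
  by_cases hx : x ∈ A
  · exact ⟨0, by simpa using hx⟩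
  · have hinv : x⁻¹ ∈ A := (A.mem_or_inv_mem x).resolve_left hx
    have hx0 : x ≠ 0 := fun h => hx (h ▸ A.zero_mem)
    have hd : (⟨x⁻¹, hinv⟩ : A) ≠ 0 := by
      intro h
      have := congrArg (fun a : A => (a : Qbar)) h
      simp at this
      exact hx0 this
    obtain ⟨n, hn⟩ := Fermat.Agent.S18lib.rankOne_of_liesOverPrime A hA _
      (natCast_mem_maximalIdeal hA) _ hd
    rcases ValuationRing.dvd_total (((ℓ : ℕ) : A) ^ n) (⟨x⁻¹, hinv⟩ : A) with h | h
    · exact absurd h hn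
    · obtain ⟨s, hs⟩ := h
      refine ⟨n, ?_⟩
      have h2 : ((ℓ : ℕ) : Qbar) ^ n = x⁻¹ * (s : Qbar) := by
        have := congrArg (fun a : A => (a : Qbar)) hs
        simpa using this
      have : ((ℓ : ℕ) : Qbar) ^ n * x = s := by
        rw [h2]; field_simp
      rw [this]; exact s.2

/-- uniform bounded denominators for the conjugates -/
theorem exists_pow_mul_apply_mem (hℓ : ℓ.Prime) (hA : A.LiesOverPrime ℓ) (r : Qbar) :
    ∃ m : ℕ, ∀ σ : GQ, ((ℓ : ℕ) : Qbar) ^ m * σ r ∈ A := by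
  classical
  have hint : IsIntegral ℚ r := Algebra.IsIntegral.isIntegral r
  have hp0 : minpoly ℚ r ≠ 0 := minpoly.ne_zero hint
  let R : Finset Qbar := ((minpoly ℚ r).rootSet Qbar).toFinset
  choose mf hmf using fun x : Qbar => exists_pow_mul_mem hℓ hA x
  refine ⟨R.sup mf, fun σ => ?_⟩
  have hmem : σ r ∈ R := by
    simp only [R, Set.mem_toFinset, Polynomial.mem_rootSet]
    exact ⟨hp0, aeval_apply_minpoly r σ⟩
  have hle : mf (σ r) ≤ R.sup mf := Finset.le_sup hmem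
  have : ((ℓ : ℕ) : Qbar) ^ (R.sup mf) * σ r =
      ((ℓ : ℕ) : Qbar) ^ (R.sup mf - mf (σ r)) * (((ℓ : ℕ) : Qbar) ^ mf (σ r) * σ r) := by
    rw [← mul_assoc, ← pow_add]
    congr 2
    omega
  rw [this]
  exact A.mul_mem _ _ (pow_mem (natCast_mem hA) _) (hmf (σ r))

/-- a rational number in `A` is congruent to an integer modulo `ℓ^n A` -/
theorem exists_int_isSmall_of_rat (hℓ : ℓ.Prime) (hA : A.LiesOverPrime ℓ) (t : ℚ)
    (ht : (t : Qbar) ∈ A) (n : ℕ) : ∃ z : ℤ, IsSmall A ℓ n ((t : Qbar) - z) := by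
  have hℓA := natCast_mem_maximalIdeal hA
  have hden0 : (t.den : Qbar) ≠ 0 := by exact_mod_cast t.den_nz
  have hnd : (t : Qbar) * (t.den : Qbar) = (t.num : Qbar) := by
    have := Rat.mul_den_eq_num t
    exact_mod_cast congrArg (fun q : ℚ => (q : Qbar)) this
  -- `ℓ ∤ den`
  have hcop : ¬ ℓ ∣ t.den := by
    intro hdvd
    have hnum : ¬ (ℓ : ℤ) ∣ t.num := by
      intro h
      have h1 : ℓ ∣ t.num.natAbs := Int.natCast_dvd.mp h
      have h3 : ℓ ∣ Nat.gcd t.num.natAbs t.den := Nat.dvd_gcd h1 hdvd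
      rw [t.reduced] at h3
      exact hℓ.one_lt.ne' (Nat.dvd_one.mp h3)
    have hunit := Fermat.Agent.S18lib.RankOneAux.isUnit_intCast_of_not_dvd (A := A) hℓ hℓA hnum
    obtain ⟨k, hk⟩ := hdvd
    have hdenmem : (t.den : Qbar) ∈ A.nonunits := by
      rw [hk]; push_cast
      rw [mul_comm]
      have hkA : ((k : ℕ) : Qbar) ∈ A := _root_.natCast_mem A k
      exact mul_mem_nonunits_of_mem hkA hA
    have hnummem : (t.num : Qbar) ∈ A.nonunits := by
      rw [← hnd]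
      exact mul_mem_nonunits_of_mem ht hdenmem
    have h4 := mem_maximalIdeal_of_mem_nonunits (A.nonunits_le hnummem) hnummem
    have h5 : (⟨(t.num : Qbar), A.nonunits_le hnummem⟩ : A) = ((t.num : ℤ) : A) := by
      ext; simp
    rw [h5] at h4
    exact (IsLocalRing.mem_maximalIdeal _).mp h4 hunit
  -- `den` is a unit of `A`
  have hdenunit : IsUnit ((t.den : ℤ) : A) := by
    apply Fermat.Agent.S18lib.RankOneAux.isUnit_intCast_of_not_dvd (A := A) hℓ hℓA
    intro h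
    exact hcop (Int.natCast_dvd_natCast.mp h)
  have hdeninv : ((t.den : Qbar))⁻¹ ∈ A := by
    obtain ⟨u, hu⟩ := hdenunit
    have h1 : ((u⁻¹ : Aˣ) : A) * ((t.den : ℤ) : A) = 1 := by rw [← hu]; exact u.inv_mul
    have h2 := congrArg (fun a : A => (a : Qbar)) h1
    simp only [MulMemClass.coe_mul, OneMemClass.coe_one] at h2
    have h3 : (((t.den : ℤ) : A) : Qbar) = (t.den : Qbar) := by simp
    rw [h3] at h2
    have : ((t.den : Qbar))⁻¹ = (((u⁻¹ : Aˣ) : A) : Qbar) :=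
      (eq_inv_of_mul_eq_one_left h2).symm
    rw [this]
    exact ((u⁻¹ : Aˣ) : A).2
  -- Bezout
  have hcop2 : IsCoprime ((t.den : ℤ)) ((ℓ : ℤ) ^ n) := by
    apply IsCoprime.pow_right
    rw [Int.isCoprime_iff_gcd_eq_one]
    have : Nat.Coprime t.den ℓ := (Nat.Coprime.symm ((Nat.Prime.coprime_iff_not_dvd hℓ).mpr hcop))
    simpa [Int.gcd] using this
  obtain ⟨x, y, hxy⟩ := hcop2
  refine ⟨t.num * x, (t.num : Qbar) * y * ((t.den : Qbar))⁻¹, ?_, ?_⟩
  · refine A.mul_mem _ _ (A.mul_mem _ _ ?_ ?_) hdeninv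
    · exact _root_.intCast_mem A t.num
    · exact _root_.intCast_mem A y
  · have hxyQ : (x : Qbar) * (t.den : Qbar) + (y : Qbar) * ((ℓ : ℕ) : Qbar) ^ n = 1 := by
      have := congrArg (fun z : ℤ => (z : Qbar)) hxy
      push_cast at this
      exact this
    have htq : (t : Qbar) = (t.num : Qbar) * ((t.den : Qbar))⁻¹ := by
      rw [← hnd]; field_simp
    rw [htq]
    push_cast
    field_simp
    linear_combination (-(t.num : Qbar)) * hxyQ

/-- **The decomposition ring is `ℓ`-adically approximated by `ℤ`.** -/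
theorem exists_int_isSmall (hℓ : ℓ.Prime) (hA : A.LiesOverPrime ℓ) {r : Qbar}
    (hr : r ∈ Fermat.Agent.S19lib.AD A) (n : ℕ) : ∃ z : ℤ, IsSmall A ℓ n (r - z) := by
  classical
  obtain ⟨hrA, hrD⟩ := hr
  -- an open normal subgroup fixing `r`
  obtain ⟨H, hH⟩ := ProfiniteGrp.exist_openNormalSubgroup_sub_open_nhds_of_one
    (stabilizer_isOpen_of_isIntegral (K := ℚ) (L := Qbar) r) (Subgroup.one_mem _)
  set U : Subgroup GQ := H.toOpenSubgroup.toSubgroup with hUdef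
  have hUn : U.Normal := H.isNormal'
  have hUo : IsOpen (U : Set GQ) := H.toOpenSubgroup.isOpen'
  have hUr : ∀ u ∈ U, u r = r := fun u hu => by
    have := hH hu
    exact this
  obtain ⟨m, hm⟩ := exists_pow_mul_apply_mem hℓ hA r
  obtain ⟨y₁, hy1A, hy1D, hy1U, hy1one, hy1small⟩ := exists_y1 hℓ hA U hUo (n + m)
  set y := y₁ * r with hy
  -- `y` is fixed by `D U`
  have hfix : ∀ σ : GQ, InDU A U σ → σ y = y := by
    rintro σ ⟨d, hd, u, hu, rfl⟩
    change d (u (y₁ * r)) = y₁ * r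
    rw [map_mul, hy1U u hu, hUr u hu, map_mul, hy1D d hd, hrD d hd]
  -- the other conjugates are small
  have hsmall : ∀ σ : GQ, ¬ InDU A U σ → IsSmall A ℓ n (σ y) := by
    intro σ hσ
    obtain ⟨s, hs, hs'⟩ := hy1small σ hσ
    refine ⟨s * (((ℓ : ℕ) : Qbar) ^ m * σ r), A.mul_mem _ _ hs (hm σ), ?_⟩
    rw [hy, map_mul, hs', pow_add]
    ring
  have hyr : IsSmall A ℓ n (y - r) := by
    have h1 : y - r = (y₁ - 1) * r := by rw [hy]; ring
    rw [h1]
    exact (hy1one.mul_mem hrA).mono hA (Nat.le_add_right n m)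
  -- the sum of the conjugates
  have hint : IsIntegral ℚ y := Algebra.IsIntegral.isIntegral y
  set p := minpoly ℚ y with hp
  have hp0 : p ≠ 0 := minpoly.ne_zero hint
  have hsplit : (p.map (algebraMap ℚ Qbar)).Splits := IsAlgClosed.splits _
  have hmonic : (p.map (algebraMap ℚ Qbar)).Monic := (minpoly.monic hint).map _
  have hsum : (p.aroots Qbar).sum = algebraMap ℚ Qbar (-p.nextCoeff) := by
    have h1 := hsplit.nextCoeff_eq_neg_sum_roots_of_monic hmonic
    rw [Polynomial.nextCoeff_map (algebraMap ℚ Qbar).injective] at h1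
    rw [map_neg, h1, neg_neg]
  have hymem : y ∈ p.aroots Qbar := by
    rw [Polynomial.mem_aroots]
    exact ⟨hp0, minpoly.aeval ℚ y⟩
  have hnodup : (p.aroots Qbar).Nodup :=
    Polynomial.nodup_roots ((minpoly.irreducible hint).separable.map)
  have hothers : IsSmall A ℓ n ((p.aroots Qbar).erase y).sum := by
    refine isSmall_multiset_sum _ fun y' hy' => ?_
    rw [hnodup.mem_erase_iff] at hy'
    obtain ⟨hne, hmem⟩ := hy'
    rw [Polynomial.mem_aroots] at hmem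
    obtain ⟨σ, hσ⟩ := minpoly.exists_algEquiv_of_root (K := ℚ) (L := Qbar)
      (Algebra.IsAlgebraic.isAlgebraic y) hmem.2
    have hy'eq : y' = σ⁻¹ y := by
      rw [← hσ]
      exact (inv_apply_apply σ y').symm
    rw [hy'eq]
    refine hsmall σ⁻¹ fun hin => hne ?_
    rw [hy'eq, hfix σ⁻¹ hin]
  have hT : IsSmall A ℓ n ((p.aroots Qbar).sum - r) := by
    rw [← Multiset.sum_erase hymem]
    have : y + ((p.aroots Qbar).erase y).sum - r = (y - r) + ((p.aroots Qbar).erase y).sum := by ring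
    rw [this]
    exact hyr.add hothers
  have hTA : (((-p.nextCoeff : ℚ)) : Qbar) ∈ A := by
    have h1 : (((-p.nextCoeff : ℚ)) : Qbar) = algebraMap ℚ Qbar (-p.nextCoeff) :=
      (eq_ratCast (algebraMap ℚ Qbar) _).symm
    rw [h1, ← hsum]
    have : (p.aroots Qbar).sum = ((p.aroots Qbar).sum - r) + r := by ring
    rw [this]
    exact A.add_mem _ _ (hT.mem hA) hrA
  obtain ⟨z, hz⟩ := exists_int_isSmall_of_rat hℓ hA (-p.nextCoeff) hTA n
  refine ⟨z, ?_⟩
  have h1 : (((-p.nextCoeff : ℚ)) : Qbar) = (p.aroots Qbar).sum := by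
    rw [hsum]; exact (eq_ratCast (algebraMap ℚ Qbar) _).symm
  rw [h1] at hz
  have : r - (z : Qbar) = ((p.aroots Qbar).sum - z) - ((p.aroots Qbar).sum - r) := by ring
  rw [this]
  exact hz.sub hT

/-- the same, spelled out: `AD A = ℤ + ℓ^n A` -/
theorem exists_int_sub_eq (hℓ : ℓ.Prime) (hA : A.LiesOverPrime ℓ) {r : Qbar}
    (hr : r ∈ Fermat.Agent.S19lib.AD A) (n : ℕ) :
    ∃ z : ℤ, ∃ s ∈ A, r - (z : Qbar) = ((ℓ : ℕ) : Qbar) ^ n * s :=
  exists_int_isSmall hℓ hA hr n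

end Main

end Fermat.Agent.S19lib.Lead
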