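/-
S19lib / Lead / Purity  (lead)  — Project FF, input (P) of FF-G.

`G_ℚ`-equivariant functions `Y → ℚ̄` that are `ℚ`-linearly independent are `ℚ̄`-linearly independent
(Artin's argument); hence a relation `t = ∑ b_j T_j` between equivariant functions with coefficients
in a subring `B` of `ℚ̄` whose Galois-fixed elements are `ℓ`-integral rationals can be rewritten with
coefficients in `ℤ_(ℓ)`.
-/
import Mathlib
import Fermat.Agent.S19lib.Iface

set_option autoImplicit false

noncomputable section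

namespace Fermat.Agent.S19lib.Lead

local notation "Qb" => AlgebraicClosure ℚ
local notation "GQ" => (AlgebraicClosure ℚ ≃ₐ[ℚ] AlgebraicClosure ℚ)

section

variable {Y : Type} [MulAction GQ Y]

/-- `G_ℚ`-equivariance of a function to `ℚ̄` -/
def IsEqv (f : Y → Qb) : Prop := ∀ (σ : GQ) (y : Y), f (σ • y) = σ (f y)

/-- a Galois-fixed element of `ℚ̄` is rational -/
theorem exists_rat_of_fixed {a : Qb} (ha : ∀ σ : GQ, σ a = a) : ∃ q : ℚ, algebraMap ℚ Qb q = a := by
  have halg : Algebra.IsAlgebraic ℚ Qb := AlgebraicClosure.isAlgebraic ℚ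
  have hcl : IsAlgClosure ℚ Qb := ⟨inferInstance, halg⟩
  have hnorm : Normal ℚ Qb := IsAlgClosure.normal ℚ Qb
  have hgal : IsGalois ℚ Qb := ⟨⟩
  have h1 : a ∈ Set.range (algebraMap ℚ Qb) := by
    rw [InfiniteGalois.mem_range_algebraMap_iff_fixed]
    exact ha
  exact h1

/-- twisting a relation by `σ` -/
theorem sum_apply_smul_eq {n : ℕ} (T : Fin n → Y → Qb) (hT : ∀ j, IsEqv (T j)) (a : Fin n → Qb)
    (σ : GQ) (y : Y) : σ (∑ j, a j * T j (σ⁻¹ • y)) = ∑ j, σ (a j) * T j y := by
  rw [map_sum]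
  refine Finset.sum_congr rfl fun j _ => ?_
  rw [map_mul, ← hT j σ (σ⁻¹ • y), smul_inv_smul]

/-- **Artin**: `ℚ`-independent equivariant functions are `ℚ̄`-independent. -/
theorem linearIndependent_of_isEqv : ∀ {n : ℕ} (T : Fin n → Y → Qb), (∀ j, IsEqv (T j)) →
    LinearIndependent ℚ T → LinearIndependent Qb T := by
  intro n
  induction n with
  | zero => intro T _ _; exact linearIndependent_empty_type
  | succ n ih =>
    intro T hT hind
    have hsn : T = Fin.snoc (Fin.init T) (T (Fin.last n)) := (Fin.snoc_init_self T).symm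
    rw [hsn] at hind ⊢
    rw [linearIndependent_finSnoc] at hind ⊢
    obtain ⟨hind1, hnot⟩ := hind
    have hT1 : ∀ j, IsEqv (Fin.init T j) := fun j => hT _
    have hLI := ih (Fin.init T) hT1 hind1
    refine ⟨hLI, fun hmem => hnot ?_⟩
    rw [Submodule.mem_span_range_iff_exists_fun] at hmem ⊢
    obtain ⟨a, ha⟩ := hmem
    -- the coefficients are Galois-fixed
    have hpt : ∀ y, T (Fin.last n) y = ∑ j, a j * Fin.init T j y := by
      intro y
      have := congrFun ha y
      simp only [Finset.sum_apply, Pi.smul_apply, smul_eq_mul] at this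
      exact this.symm
    have hfix : ∀ σ : GQ, ∀ j, σ (a j) = a j := by
      intro σ
      have h1 : ∑ j, (σ (a j) - a j) • Fin.init T j = 0 := by
        funext y
        simp only [Finset.sum_apply, Pi.smul_apply, smul_eq_mul, Pi.zero_apply, sub_mul,
          Finset.sum_sub_distrib]
        rw [← sum_apply_smul_eq (Fin.init T) hT1 a σ y, ← hpt, ← hpt, ← hT _ σ, smul_inv_smul,
          sub_self]
      have h2 := Fintype.linearIndependent_iff.mp hLI _ h1
      intro j
      exact sub_eq_zero.mp (h2 j)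
    choose q hq using fun j => exists_rat_of_fixed (fun σ => hfix σ j)
    refine ⟨q, ?_⟩
    rw [← ha]
    refine Finset.sum_congr rfl fun j _ => ?_
    funext y
    simp only [Pi.smul_apply, smul_eq_mul, ← hq j]
    rw [Algebra.smul_def]

/-- a rational number of non-negative `ℓ`-adic valuation lies in `ℤ_(ℓ)` -/
theorem mem_ratLocalizedAt_of_padicValRat_nonneg {ℓ : ℕ} [hℓ : Fact ℓ.Prime] {q : ℚ}
    (hq : 0 ≤ padicValRat ℓ q) : q ∈ GaloisRep.ratLocalizedAt ℓ := by
  change q.den.Coprime ℓ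
  by_contra hcop
  have hdvd : ℓ ∣ q.den := by
    by_contra hnd
    exact hcop ((Nat.Prime.coprime_iff_not_dvd hℓ.out).mpr hnd).symm
  have h1 : 1 ≤ padicValNat ℓ q.den := one_le_padicValNat_of_dvd q.den_nz hdvd
  have h2 : padicValInt ℓ q.num = 0 := by
    apply padicValInt.eq_zero_of_not_dvd
    intro h
    have h3 : ℓ ∣ q.num.natAbs := Int.natCast_dvd.mp h
    have h4 : ℓ ∣ Nat.gcd q.num.natAbs q.den := Nat.dvd_gcd h3 hdvd
    rw [q.reduced] at h4
    exact hℓ.out.one_lt.ne' (Nat.dvd_one.mp h4)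
  rw [padicValRat_def, h2, Nat.cast_zero, zero_sub] at hq
  have : (1 : ℤ) ≤ (padicValNat ℓ q.den : ℤ) := by exact_mod_cast h1
  omega

/-- normalising a rational relation: some coefficient is `1`, all are in `ℤ_(ℓ)` -/
theorem exists_normalised {ℓ : ℕ} [Fact ℓ.Prime] {m : ℕ} (g : Fin m → ℚ) (hg : ∃ i, g i ≠ 0) :
    ∃ j₀ : Fin m, g j₀ ≠ 0 ∧ ∀ j, g j / g j₀ ∈ GaloisRep.ratLocalizedAt ℓ := by
  classical
  obtain ⟨i, hi⟩ := hg
  have hne : (Finset.univ.filter fun j => g j ≠ 0).Nonempty := ⟨i, by simp [hi]⟩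
  obtain ⟨j₀, hj₀, hmin⟩ := Finset.exists_min_image _ (fun j => padicValRat ℓ (g j)) hne
  have hj₀' : g j₀ ≠ 0 := by simpa using hj₀
  refine ⟨j₀, hj₀', fun j => ?_⟩
  by_cases hj : g j = 0
  · rw [hj, zero_div]; exact (GaloisRep.ratLocalizedAt ℓ).zero_mem
  · apply mem_ratLocalizedAt_of_padicValRat_nonneg
    rw [padicValRat.div hj hj₀']
    have := hmin j (by simp [hj])
    change padicValRat ℓ (g j₀) ≤ padicValRat ℓ (g j) at this
    omega

/-- **(P) purity** -/
theorem purity_aux (ℓ : ℕ) [Fact ℓ.Prime] (B : Subring Qb)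
    (hB : ∀ x ∈ B, (∀ σ : GQ, σ x = x) → x ∈ RQ ℓ) (hRB : RQ ℓ ≤ B) (t : Y → Qb) (ht : IsEqv t) :
    ∀ {m : ℕ} (T : Fin m → Y → Qb), (∀ j, IsEqv (T j)) → ∀ b : Fin m → Qb, (∀ j, b j ∈ B) →
      (∀ y, t y = ∑ j, b j * T j y) →
      ∃ b' : Fin m → Qb, (∀ j, b' j ∈ RQ ℓ) ∧ ∀ y, t y = ∑ j, b' j * T j y := by
  intro m
  induction m with
  | zero =>
    intro T _ b _ h
    exact ⟨b, fun j => j.elim0, h⟩
  | succ m ih =>
    intro T hT b hb h
    by_cases hind : LinearIndependent ℚ T
    · -- the coefficients are Galois-fixed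
      have hLI := linearIndependent_of_isEqv T hT hind
      refine ⟨b, fun j => hB _ (hb j) fun σ => ?_, h⟩
      have h1 : ∑ j, (σ (b j) - b j) • T j = 0 := by
        funext y
        simp only [Finset.sum_apply, Pi.smul_apply, smul_eq_mul, Pi.zero_apply, sub_mul,
          Finset.sum_sub_distrib]
        rw [← sum_apply_smul_eq T hT b σ y, ← h, ← h, ← ht σ, smul_inv_smul, sub_self]
      exact sub_eq_zero.mp (Fintype.linearIndependent_iff.mp hLI _ h1 j)
    · -- eliminate one function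
      rw [Fintype.not_linearIndependent_iff] at hind
      obtain ⟨g, hg0, hgne⟩ := hind
      obtain ⟨j₀, hj₀, hnorm⟩ := exists_normalised (ℓ := ℓ) g hgne
      set c : Fin (m + 1) → Qb := fun j => algebraMap ℚ Qb (g j / g j₀) with hc
      have hcRQ : ∀ j, c j ∈ RQ ℓ := fun j => Subring.mem_map.mpr ⟨_, hnorm j, rfl⟩
      have hc0 : c j₀ = 1 := by
        change algebraMap ℚ Qb (g j₀ / g j₀) = 1
        rw [div_self hj₀, map_one]
      have hrel : ∀ y, ∑ j, c j * T j y = 0 := by
        intro y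
        have h1 := congrFun hg0 y
        simp only [Finset.sum_apply, Pi.smul_apply, Pi.zero_apply] at h1
        have h2 : ∑ j, c j * T j y = algebraMap ℚ Qb (g j₀)⁻¹ * ∑ j, g j • T j y := by
          rw [Finset.mul_sum]
          refine Finset.sum_congr rfl fun j _ => ?_
          change algebraMap ℚ Qb (g j / g j₀) * T j y = algebraMap ℚ Qb (g j₀)⁻¹ * (g j • T j y)
          rw [Algebra.smul_def, ← mul_assoc, ← map_mul, div_eq_inv_mul]
        rw [h2, h1, mul_zero]
      have hTj₀ : ∀ y, T j₀ y = - ∑ i : Fin m, c (j₀.succAbove i) * T (j₀.succAbove i) y := by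
        intro y
        have := hrel y
        rw [Fin.sum_univ_succAbove _ j₀, hc0, one_mul] at this
        exact eq_neg_of_add_eq_zero_left this
      obtain ⟨b₁, hb₁, hb₁'⟩ := ih (fun i => T (j₀.succAbove i)) (fun i => hT _)
        (fun i => b (j₀.succAbove i) - b j₀ * c (j₀.succAbove i))
        (fun i => B.sub_mem (hb _) (B.mul_mem (hb _) (hRB (hcRQ _)))) (by
          intro y
          rw [h y, Fin.sum_univ_succAbove _ j₀, hTj₀ y, mul_neg, Finset.mul_sum, ← Finset.sum_neg_distrib,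
            ← Finset.sum_add_distrib]
          refine Finset.sum_congr rfl fun i _ => ?_
          ring)
      refine ⟨Fin.insertNth j₀ (0 : Qb) b₁, ?_, ?_⟩
      · intro j
        refine Fin.succAboveCases j₀ ?_ (fun i => ?_) j
        · rw [Fin.insertNth_apply_same]; exact (RQ ℓ).zero_mem
        · rw [Fin.insertNth_apply_succAbove]; exact hb₁ i
      · intro y
        rw [hb₁' y, Fin.sum_univ_succAbove _ j₀, Fin.insertNth_apply_same, zero_mul, zero_add]
        refine Finset.sum_congr rfl fun i _ => ?_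
        rw [Fin.insertNth_apply_succAbove]

/-- **(P) purity**, in the form requested by FF-G -/
theorem purity (ℓ : ℕ) [Fact ℓ.Prime] (B : Subring Qb)
    (hB : ∀ x ∈ B, (∀ σ : GQ, σ x = x) → x ∈ RQ ℓ) (hRB : RQ ℓ ≤ B) {m : ℕ} (t : Y → Qb)
    (T : Fin m → Y → Qb) (ht : ∀ (σ : GQ) (y : Y), t (σ • y) = σ (t y))
    (hT : ∀ j, ∀ (σ : GQ) (y : Y), T j (σ • y) = σ (T j y)) (b : Fin m → Qb) (hb : ∀ j, b j ∈ B)
    (h : ∀ y, t y = ∑ j, b j * T j y) :
    ∃ b' : Fin m → Qb, (∀ j, b' j ∈ RQ ℓ) ∧ ∀ y, t y = ∑ j, b' j * T j y :=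
  purity_aux ℓ B hB hRB t ht T hT b hb h

end

end Fermat.Agent.S19lib.Lead
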