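/-
S19lib / Lead / Descent  (lead)  — Project FF, block FF-G closed.

`DescentStmt` from helper5's `G.descentStmt_of` and the three arithmetic inputs of `S19lib/Lead/`:
density of `ℤ` in `AD A` (`ADApprox`), an injective equivariant map `Γ → ℚ̄` (`GalBasis`), purity
(`Purity`).
-/
import Mathlib
import Fermat.Agent.S19lib.G.Main
import Fermat.Agent.S19lib.Lead.ADApprox
import Fermat.Agent.S19lib.Lead.GalBasis
import Fermat.Agent.S19lib.Lead.Purity

set_option autoImplicit false

namespace Fermat.Agent.S19lib.Lead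

/-- input (AD) of FF-G -/
theorem adApproxStmt : Fermat.Agent.S19lib.G.ADApproxStmt :=
  fun _ hℓ _ hA _ hr n => exists_int_sub_eq hℓ.out hA hr n

/-- input (GB) of FF-G -/
theorem galBasisStmt : Fermat.Agent.S19lib.G.GalBasisStmt :=
  fun _ _ _ Γ hΓ => exists_equivariant_injective Γ hΓ

/-- input (P) of FF-G -/
theorem purityStmt : Fermat.Agent.S19lib.G.PurityStmt :=
  fun ℓ _ _ _ B hB hRB _ t T ht hT b hb h => purity ℓ B hB hRB t T ht hT b hb h

/-- **FF-G**: `DescentStmt`. -/
theorem descentStmt : Fermat.Agent.S19lib.DescentStmt :=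
  Fermat.Agent.S19lib.G.descentStmt_of adApproxStmt galBasisStmt purityStmt

end Fermat.Agent.S19lib.Lead
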