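/-
S19lib / Lead / Assemble  (lead)  — Project FF, assembly FF-I.

S19 (finite flat models of `J₀(p)[ℓ^k]`, `ℓ ∤ p`) from the geometric block `GeomStmt`; the other four
blocks are instantiated: `E.orderStmt` (FF-E/FF-F), `Lead.descentStmt` (FF-G), `H.packStmt` (FF-H),
`T.torsStmt` (FF-T), and the existence of a place of `ℚ̄` over `ℓ` (`S13lib.exists_liesOverPrime`).
-/
import Mathlib
import Fermat.Agent.S19lib.Iface
import Fermat.Agent.S19lib.E.Stmt
import Fermat.Agent.S19lib.T.Tors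
import Fermat.Agent.S19lib.H.Pack
import Fermat.Agent.S19lib.Lead.Descent
import Fermat.Agent.S13lib.PlaceOpen

set_option autoImplicit false

namespace Fermat.Agent.S19lib.Lead

open ModularCurve

/-- **S19 from `GeomStmt`**, in the exact shape of the frozen statement. -/
theorem s19_of_geomStmt (hGeom : Fermat.Agent.S19lib.GeomStmt)
    (p : ℕ) [NeZero p] (ℓ : ℕ) [Fact ℓ.Prime] (hℓp : ¬ ℓ ∣ p) (k : ℕ) :
    ∃ (H : Type) (_ : CommRing H) (_ : HopfAlgebra (GaloisRep.ratLocalizedAt ℓ) H),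
      Module.Finite (GaloisRep.ratLocalizedAt ℓ) H ∧ Module.Flat (GaloisRep.ratLocalizedAt ℓ) H ∧
      Coalgebra.IsCocomm (GaloisRep.ratLocalizedAt ℓ) H ∧
      ∃ e : WithConv (H →ₐ[GaloisRep.ratLocalizedAt ℓ] AlgebraicClosure ℚ) ≃
          ↥(Submodule.torsionBy ℤ (JZero p) ((ℓ : ℤ) ^ k)),
        (∀ f g, e (f * g) = e f + e g) ∧
        ∀ (σ : AlgebraicClosure ℚ ≃ₐ[ℚ] AlgebraicClosure ℚ)
          (f g : WithConv (H →ₐ[GaloisRep.ratLocalizedAt ℓ] AlgebraicClosure ℚ)),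
          (∀ h : H, g h = σ (f h)) → ((e g : JZero p)) = σ • (e f : JZero p) :=
  Fermat.Agent.S19lib.hopfConclusion_tors hGeom Fermat.Agent.S19lib.E.orderStmt descentStmt
    Fermat.Agent.S19lib.H.packStmt Fermat.Agent.S19lib.T.torsStmt
    (fun _ h => Fermat.Agent.S13lib.exists_liesOverPrime h) p ℓ hℓp k

end Fermat.Agent.S19lib.Lead
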